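import Fermat.Agent.S41.H527.PeriodTraceOne
import Fermat.Agent.S41.H881.PeriodSum
import Fermat.Agent.S41.H881.TransferReps

/-!
# Row S41, block NEW, leaf NEW-2/1 (helper527): unconditional form

`newPeriodTraceOne : Spec.NewPeriodTraceOneStatement`, from `newPeriodTraceOne_of` and the landed
leaves `H881.newPeriodSum`, `H881.newTransferReps`.
-/

set_option autoImplicit false

namespace Fermat.Agent.S41.H527

/-- **NEW-2/1**, unconditional. -/
theorem newPeriodTraceOne : Spec.NewPeriodTraceOneStatement :=
  newPeriodTraceOne_of H881.newPeriodSum H881.newTransferReps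

end Fermat.Agent.S41.H527
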