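import Fermat.Agent.S41.Spec.New2
import Fermat.Agent.Lib.Newform.H623.Trace

/-!
# Row S41, block NEW, leaf NEW-2/1 (helper527): `NewPeriodTraceOneStatement`

`newPeriodTraceOne_of : NewPeriodSumStatement → NewTransferRepsStatement →
  NewPeriodTraceOneStatement`.

For a cusp form `f` of level `N q` (`q` prime, `q ∤ N`) the Mathlib trace
`g₁ = CuspForm.trace (Γ₀(N)) f` is `f + U_q (f ∣ A)` (`H623.CF_coe_trace_eq_add_heckeU_two`), and
its periods are the transfer `t₁` of the periods of `f`: both sides are computed in the explicit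
system of representatives `H623.newRep` of `Γ₀(N q) \ Γ₀(N)`.
-/

set_option autoImplicit false
set_option linter.style.haveILetI false

namespace Fermat.Agent.S41.H527

open CongruenceSubgroup ModularCurve ModularCurve.Period ModularFormClass UpperHalfPlane
open Matrix.SpecialLinearGroup
open Fermat.Agent.S29.H642 Fermat.Agent.Lib.Newform
open scoped MatrixGroups ModularForm

/-- A system of representatives of `Γ₀(N q) \ Γ₀(N)` acts on itself by right multiplication by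
`γ ∈ Γ₀(N)`: the permutation `σ` and the elements `k x ∈ Γ₀(N q)` with
`r x * γ = k x * r (σ x)`. -/
theorem exists_perm_of_reps (N q : ℕ) {ι : Type} [Finite ι] (r : ι → Gamma0 N)
    (hinj : ∀ i j, (r i : SL(2, ℤ)) * (r j : SL(2, ℤ))⁻¹ ∈ Gamma0 (N * q) → i = j)
    (hsurj : ∀ g : Gamma0 N, ∃ i, (r i : SL(2, ℤ)) * (g : SL(2, ℤ))⁻¹ ∈ Gamma0 (N * q))
    (γ : Gamma0 N) :
    ∃ (σ : Equiv.Perm ι) (k : ι → Gamma0 (N * q)),
      ∀ x, (r x : SL(2, ℤ)) * (γ : SL(2, ℤ)) = (k x : SL(2, ℤ)) * (r (σ x) : SL(2, ℤ)) := by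
  classical
  have h1 : ∀ x, ∃ j, (r x : SL(2, ℤ)) * (γ : SL(2, ℤ)) * (r j : SL(2, ℤ))⁻¹ ∈ Gamma0 (N * q) := by
    intro x
    obtain ⟨j, hj⟩ := hsurj (r x * γ)
    refine ⟨j, ?_⟩
    have := inv_mem hj
    simpa [mul_inv_rev] using this
  choose σ hσ using h1
  have hσinj : Function.Injective σ := by
    intro x x' hxx'
    apply hinj
    have h2 := hσ x
    have h3 := hσ x'
    rw [← hxx'] at h3
    have h4 := mul_mem h2 (inv_mem h3)
    have h5 : (r x : SL(2, ℤ)) * (γ : SL(2, ℤ)) * (r (σ x) : SL(2, ℤ))⁻¹ *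
        ((r x' : SL(2, ℤ)) * (γ : SL(2, ℤ)) * (r (σ x) : SL(2, ℤ))⁻¹)⁻¹ =
        (r x : SL(2, ℤ)) * (r x' : SL(2, ℤ))⁻¹ := by
      group
    rwa [h5] at h4
  have hσbij : Function.Bijective σ := Finite.injective_iff_bijective.mp hσinj
  refine ⟨Equiv.ofBijective σ hσbij, fun x => ⟨_, hσ x⟩, fun x => ?_⟩
  simp

/-- The Mathlib trace from level `N q` to level `N` is the sum of the slashes by any system of
representatives of `Γ₀(N q) \ Γ₀(N)`. -/
theorem coe_cuspTrace_eq_sum_reps (N q : ℕ)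
    [hfin : (Gamma0 (N * q) : Subgroup (GL (Fin 2) ℝ)).IsFiniteRelIndex
      (Gamma0 N : Subgroup (GL (Fin 2) ℝ))]
    {ι : Type} [Fintype ι] (r : ι → Gamma0 N)
    (hinj : ∀ i j, (r i : SL(2, ℤ)) * (r j : SL(2, ℤ))⁻¹ ∈ Gamma0 (N * q) → i = j)
    (hsurj : ∀ g : Gamma0 N, ∃ i, (r i : SL(2, ℤ)) * (g : SL(2, ℤ))⁻¹ ∈ Gamma0 (N * q))
    (f : CuspForm (Gamma0 (N * q)) 2) :
    (⇑(CuspForm.trace (Gamma0 N : Subgroup (GL (Fin 2) ℝ)) f) : ℍ → ℂ) =
      ∑ i, (⇑f : ℍ → ℂ) ∣[(2 : ℤ)] (mapGL ℝ (r i : SL(2, ℤ))) := by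
  let _ : Fintype (H623.Cosets (N * q) N) := Fintype.ofFinite _
  have h : (⇑(SlashInvariantForm.trace (Gamma0 N : Subgroup (GL (Fin 2) ℝ)) f) : ℍ → ℂ) =
      ∑ i, (⇑f : ℍ → ℂ) ∣[(2 : ℤ)] (mapGL ℝ (r i : SL(2, ℤ))) := by
    rw [SlashInvariantForm.coe_trace]
    exact H623.sum_quotientFunc_eq_sum_reps (N * q) N r hinj hsurj f
  exact h

/-- **NEW-2/1.**  `NewPeriodTraceOneStatement` from the analytic leaf `NewPeriodSumStatement` and
the group-theoretic leaf `NewTransferRepsStatement`. -/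
theorem newPeriodTraceOne_of (hS : Spec.NewPeriodSumStatement)
    (hT : Spec.NewTransferRepsStatement) : Spec.NewPeriodTraceOneStatement := by
  intro N q hN hq hqN f A hA
  haveI : NeZero N := ⟨hN⟩
  haveI : NeZero (N * q) := ⟨Nat.mul_ne_zero hN hq.ne_zero⟩
  haveI : Fact q.Prime := ⟨hq⟩
  haveI hfin : (Gamma0 (N * q) : Subgroup (GL (Fin 2) ℝ)).IsFiniteRelIndex
      (Gamma0 N : Subgroup (GL (Fin 2) ℝ)) := H623.isFiniteRelIndex_gamma0 (N * q) N
  obtain ⟨a, b, c, d, hInt, hdet⟩ := hA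
  have hAmat : (A : Matrix (Fin 2) (Fin 2) ℝ) =
      !![(q : ℝ) * a, b; (N : ℝ) * q * c, (q : ℝ) * d] := by
    have := hInt
    unfold H923.IsInt at this
    rw [this]
    exact H623.mat_fin_two_ext (by push_cast; ring) rfl (by push_cast; ring)
      (by push_cast; ring)
  have hxy : (q : ℤ) * (a * d) - N * (b * c) = 1 := by linear_combination hdet
  have hdet' : (q : ℤ) * a * d - N * b * c = 1 := by linear_combination hdet
  refine ⟨CuspForm.trace (Gamma0 N : Subgroup (GL (Fin 2) ℝ)) f, ?_, ?_⟩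
  · exact H623.CF_coe_trace_eq_add_heckeU_two N q f A a b c d hAmat hdet'
  · -- the representatives
    set r : Option (Fin q) → Gamma0 N := H623.newRep N q (a * d) (b * c) hxy with hr
    have hinj : ∀ i j, (r i : SL(2, ℤ)) * (r j : SL(2, ℤ))⁻¹ ∈ Gamma0 (N * q) → i = j :=
      H623.newRep_inj N q hqN (a * d) (b * c) hxy
    have hsurj : ∀ g : Gamma0 N, ∃ i, (r i : SL(2, ℤ)) * (g : SL(2, ℤ))⁻¹ ∈ Gamma0 (N * q) :=
      H623.newRep_surj N q hqN (a * d) (b * c) hxy
    have hsum := coe_cuspTrace_eq_sum_reps N q r hinj hsurj f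
    refine AddMonoidHom.ext fun γ' => ?_
    obtain ⟨γ, rfl⟩ : ∃ γ : Gamma0 N, Additive.ofMul γ = γ' := ⟨Additive.toMul γ', rfl⟩
    obtain ⟨σ, k, hk⟩ := exists_perm_of_reps N q r hinj hsurj γ
    -- analytic side
    have h1 := hS (N * q) N f (CuspForm.trace (Gamma0 N : Subgroup (GL (Fin 2) ℝ)) f)
      (Option (Fin q)) (fun x => mapGL ℝ (r x : SL(2, ℤ)))
      (fun x => by
        rw [← Matrix.GeneralLinearGroup.val_det_apply, det_mapGL]
        exact one_pos) hsum γ σ k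
      (fun x => by rw [← map_mul, ← map_mul, hk x])
    -- group side
    have h2 := hT (Gamma0 (N * q)) (Gamma0 N) ℂ (Spec.incl N q)
      (Subgroup.inclusion_injective _) (Option (Fin q)) r
      (fun x y hxy' => by
        apply hinj
        obtain ⟨h, hh⟩ := hxy'
        have := congrArg (fun z : Gamma0 N => (z : SL(2, ℤ))) hh
        simp only [Spec.incl, Subgroup.coe_inclusion, Subgroup.coe_mul, Subgroup.coe_inv] at this
        rw [← this]
        exact h.2)
      (fun g => by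
        obtain ⟨i, hi⟩ := hsurj g
        refine ⟨i, ⟨⟨(g : SL(2, ℤ)) * (r i : SL(2, ℤ))⁻¹, ?_⟩, ?_⟩⟩
        · have := inv_mem hi
          simpa [mul_inv_rev] using this
        · apply Subtype.ext
          simp [Spec.incl])
      (periodMap (N * q) f) γ σ k
      (fun x => by
        apply Subtype.ext
        simp only [Spec.incl, Subgroup.coe_inclusion, Subgroup.coe_mul]
        exact hk x)
    rw [h1, Spec.t₁, h2]
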